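import Mathlib

/-!
# Row HARD, cell HECKE: the character `χ = ⊗ χ_q` at the pivots (helper354)

Mathlib-only.  `p` a prime, `ζ` a primitive `p`-th root of unity in a domain `𝒪`, `pv i` primes with
`p ∣ pv i - 1`.  Then there is a character `χ : ∏ (ℤ/pv i)ˣ → 𝒪` with
* `χ a ^ p = 1`, hence `χ a ≡ 1` modulo `ζ - 1`;
* `χ` is NONTRIVIAL on every primitive root modulo every `pv i`
  (so `χ_q` has order `p` and conductor `q` for every pivot `q`).
-/

set_option autoImplicit false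
set_option linter.unusedSectionVars false
set_option linter.style.haveILetI false

namespace Fermat.Agent.S38.H354

/-- In a domain with a primitive `p`-th root of unity `ζ`, every `p`-th root of unity is
congruent to `1` modulo `ζ - 1`. -/
theorem exists_sub_one_eq_of_pow_eq_one {𝒪 : Type*} [CommRing 𝒪] [IsDomain 𝒪] {p : ℕ}
    (hp : 0 < p) {ζ : 𝒪} (hζ : IsPrimitiveRoot ζ p) {x : 𝒪} (hx : x ^ p = 1) :
    ∃ c : 𝒪, x - 1 = (ζ - 1) * c := by
  haveI : NeZero p := ⟨hp.ne'⟩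
  obtain ⟨n, -, rfl⟩ := hζ.eq_pow_of_pow_eq_one hx
  have h := sub_dvd_pow_sub_pow ζ 1 n
  rw [one_pow] at h
  exact h

section OneFactor

variable {𝒪 : Type*} [CommRing 𝒪] [IsDomain 𝒪] {p : ℕ}

/-- The character of order `p` of `(ℤ/q)ˣ` attached to a generator and a primitive `p`-th root of
unity. -/
theorem exists_character_one (hp : p.Prime) {ζ : 𝒪} (hζ : IsPrimitiveRoot ζ p)
    {q : ℕ} (hq : q.Prime) (hdvd : p ∣ q - 1) :
    ∃ χ : (ZMod q)ˣ →* 𝒪, (∀ a, χ a ^ p = 1) ∧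
      ∀ g : (ZMod q)ˣ, orderOf g = q - 1 → χ g ≠ 1 := by
  haveI : Fact q.Prime := ⟨hq⟩
  haveI : NeZero p := ⟨hp.ne_zero⟩
  obtain ⟨g₀, hg₀⟩ := IsCyclic.exists_generator (α := (ZMod q)ˣ)
  have hord : orderOf g₀ = q - 1 := by
    rw [orderOf_eq_card_of_forall_mem_zpowers hg₀, Nat.card_eq_fintype_card, ZMod.card_units]
  -- the unit `ζ`
  have hζu : IsUnit ζ := hζ.isUnit hp.ne_zero
  obtain ⟨u, hu⟩ := hζu
  have hup : u ^ p = 1 := by
    apply Units.ext
    rw [Units.val_pow_eq_pow_val, hu, hζ.pow_eq_one, Units.val_one]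
  have hou : orderOf u ∣ orderOf g₀ := by
    rw [hord]
    exact (orderOf_dvd_of_pow_eq_one hup).trans hdvd
  let f : (ZMod q)ˣ →* 𝒪ˣ := monoidHomOfForallMemZpowers hg₀ hou
  have hf : f g₀ = u := monoidHomOfForallMemZpowers_apply_gen hg₀ hou
  have hfp : ∀ a, f a ^ p = 1 := by
    intro a
    obtain ⟨n, rfl⟩ := Subgroup.mem_zpowers_iff.mp (hg₀ a)
    rw [map_zpow, hf, ← zpow_natCast, ← zpow_mul, mul_comm, zpow_mul, zpow_natCast, hup,
      one_zpow]
  refine ⟨(Units.coeHom 𝒪).comp f, fun a => ?_, fun g hg hχ => ?_⟩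
  · rw [MonoidHom.comp_apply, Units.coeHom_apply, ← Units.val_pow_eq_pow_val, hfp,
      Units.val_one]
  · -- `g₀` is a power of the generator `g`
    have hgen : ∀ x : (ZMod q)ˣ, x ∈ Subgroup.zpowers g := by
      have hcard : Nat.card (Subgroup.zpowers g) = Nat.card (ZMod q)ˣ := by
        rw [Nat.card_zpowers, hg, Nat.card_eq_fintype_card, ZMod.card_units]
      have htop : Subgroup.zpowers g = ⊤ := Subgroup.eq_top_of_card_eq _ hcard
      intro x
      rw [htop]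
      exact Subgroup.mem_top x
    obtain ⟨n, hn⟩ := Subgroup.mem_zpowers_iff.mp (hgen g₀)
    have hfg : f g = 1 := by
      apply Units.ext
      rw [Units.val_one]
      exact hχ
    have h1 : u = 1 := by
      rw [← hf, ← hn, map_zpow, hfg, one_zpow]
    apply hζ.ne_one hp.one_lt
    rw [← hu, h1, Units.val_one]

end OneFactor

/-- **The character at the pivots.** -/
theorem exists_pivot_character {𝒪 : Type*} [CommRing 𝒪] [IsDomain 𝒪] {p : ℕ} (hp : p.Prime)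
    {ζ : 𝒪} (hζ : IsPrimitiveRoot ζ p) {k : ℕ} (pv : Fin k → ℕ) (hpv : ∀ i, (pv i).Prime)
    (hdvd : ∀ i, p ∣ pv i - 1) :
    ∃ χ : (∀ i : Fin k, (ZMod (pv i))ˣ) →* 𝒪,
      (∀ a, χ a ^ p = 1) ∧ (∀ a, ∃ c : 𝒪, χ a - 1 = (ζ - 1) * c) ∧
      ∀ (i : Fin k) (g : (ZMod (pv i))ˣ), orderOf g = pv i - 1 → χ (Pi.mulSingle i g) ≠ 1 := by
  classical
  choose χ₁ hχp hχg using fun i => exists_character_one hp hζ (hpv i) (hdvd i)
  let χ : (∀ i : Fin k, (ZMod (pv i))ˣ) →* 𝒪 :=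
    ∏ i, (χ₁ i).comp (Pi.evalMonoidHom (fun i => (ZMod (pv i))ˣ) i)
  have hχ : ∀ a, χ a = ∏ i, χ₁ i (a i) := by
    intro a
    simp only [χ, MonoidHom.finsetProd_apply, MonoidHom.comp_apply, Pi.evalMonoidHom_apply]
  have hpow : ∀ a, χ a ^ p = 1 := by
    intro a
    rw [hχ, ← Finset.prod_pow]
    exact Finset.prod_eq_one fun i _ => hχp i (a i)
  refine ⟨χ, hpow, fun a => exists_sub_one_eq_of_pow_eq_one hp.pos hζ (hpow a), ?_⟩
  intro i g hg
  have h1 : χ (Pi.mulSingle i g) = χ₁ i g := by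
    rw [hχ, Finset.prod_eq_single i]
    · rw [Pi.mulSingle_eq_same]
    · intro j _ hj
      rw [Pi.mulSingle_eq_of_ne hj, map_one]
    · intro h
      exact absurd (Finset.mem_univ i) h
  rw [h1]
  exact hχg i g hg

end Fermat.Agent.S38.H354
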