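import Fermat.Agent.S38.H354.ChiPart

/-!
# Row HARD, cell HECKE: the `χ`-part, `T`-linear and exponent-indexed form (helper354)

`ChiPart.lean` treats an `O`-module `V` with an `O`-basis indexed by the GROUP `D₁ × D₂`.  The
frozen interfaces (`S59/TW/Spec.lean`: `AutLevel.free`, `AlgStatement`; `S38/IA/Spec.lean`:
`HasIAModule`) present the Betti module as a module over the Hecke ring `T` (an `O`-algebra),
with a `T`-linear diamond action which factors through a quotient of the group, and with an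
`O`-basis indexed by EXPONENTS.  This file (Mathlib + `ChiPart` only) provides the `χ`-part in
that generality:

* `chiRel_add_induction` : the `T`-module of `χ`-relations is additively generated by the
  `ρ d x - χ d • x` (so additive maps killing the generators kill the relations);
* `chiQ_existsUnique`    : if the `ρ (γ₁ e₁, γ₂ e₂) (b i)` form an `O`-basis of `V`
  (`γ₁ : E₁ → D₁`, `γ₂ : E₂ → D₂` any index maps such that `γ₁ E₁` is stable under translation
  modulo the kernels of `ρ` and `χ`), then every element of the `χ`-part `V ⧸ chiRel` is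
  UNIQUELY `∑ i, ∑ e, c i e • ρ (1, γ₂ e) [b i]` — the shape of `AlgStatement`'s `_hb`;
* `chiQ_st`              : (ST) clause of `HasIAModule`: `χ ≡ 1 mod λ`, `t ∈ T` kills
  `V ⧸ I_{D₁} V` ⟹ `∀ m, ∃ m', t • m = algebraMap O T λ • m'` on the `χ`-part;
* `chiQ_range`, `chiRho_pow_eq_one` : the hypotheses `_hrange`, `_hX` of `AlgStatement` descend
  from `V` to the `χ`-part;
* `exists_basis_of_existsUnique` : from the `∃!`-shape to a `Module.Basis`.
-/

set_option autoImplicit false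
set_option linter.unusedSectionVars false

namespace Fermat.Agent.S38.H354

/-! ## `T`-linear relations are additively generated -/

section TInd

variable {T : Type*} [CommRing T] {V : Type*} [AddCommGroup V] [Module T V]
  {D : Type*} [Monoid D]

theorem smul_gen_chiRel (ρ : D →* Module.End T V) (χ : D →* T) (t : T) (d : D) (x : V) :
    t • (ρ d x - χ d • x) = ρ d (t • x) - χ d • (t • x) := by
  rw [smul_sub, map_smul, smul_comm]

/-- The `T`-module of `χ`-relations is ADDITIVELY generated by the `ρ d x - χ d • x`. -/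
theorem chiRel_add_induction (ρ : D →* Module.End T V) (χ : D →* T) {P : V → Prop}
    (hgen : ∀ d x, P (ρ d x - χ d • x)) (h0 : P 0) (hadd : ∀ a b, P a → P b → P (a + b))
    {x : V} (hx : x ∈ chiRel ρ χ) : P x := by
  have key : ∀ t : T, P (t • x) := by
    induction hx using Submodule.span_induction with
    | mem w hw =>
      obtain ⟨d, y, rfl⟩ := hw
      intro t
      rw [smul_gen_chiRel]
      exact hgen d _
    | zero => intro t; rw [smul_zero]; exact h0
    | add a b _ _ ha hb => intro t; rw [smul_add]; exact hadd _ _ (ha t) (hb t)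
    | smul c a _ ha => intro t; rw [smul_smul]; exact ha _
  simpa using key 1

/-- Multiplication by `t ∈ T` as an endomorphism commuting with every `T`-linear action. -/
theorem commute_smul_id (ρ : D →* Module.End T V) (t : T) (d : D) :
    Commute (t • (1 : Module.End T V)) (ρ d) := by
  refine LinearMap.ext fun x => ?_
  simp only [Module.End.mul_apply, LinearMap.smul_apply, Module.End.one_apply, map_smul]

theorem chiMap_smul_id (ρ : D →* Module.End T V) (χ : D →* T) (t : T) (y : V ⧸ chiRel ρ χ) :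
    chiMap ρ χ (t • (1 : Module.End T V)) (commute_smul_id ρ t) y = t • y := by
  induction y using Submodule.Quotient.induction_on with
  | H x =>
    rw [chiMap_mk, LinearMap.smul_apply, Module.End.one_apply, Submodule.Quotient.mk_smul]

end TInd

/-! ## The `T`-valued character, the (ST) clause -/

section ST

variable {O : Type*} [CommRing O] {T : Type*} [CommRing T] [Algebra O T]
  {V : Type*} [AddCommGroup V] [Module T V] {D : Type*} [Monoid D]

/-- The character `χ : D → O` with values in the `O`-algebra `T`. -/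
def chiT (T : Type*) [CommRing T] [Algebra O T] (χ : D →* O) : D →* T :=
  (algebraMap O T : O →* T).comp χ

@[simp] theorem chiT_apply (χ : D →* O) (d : D) : chiT T χ d = algebraMap O T (χ d) := rfl

theorem chiT_one : chiT T (1 : D →* O) = 1 := by
  refine MonoidHom.ext fun d => ?_
  rw [chiT_apply, MonoidHom.one_apply, map_one, MonoidHom.one_apply]

/-- **(ST) clause of `S38.IA.HasIAModule`, abstractly.**  `χ ≡ 1 mod λ` and `t ∈ T` maps `V` into
the augmentation submodule `I_D V` (i.e. `t` kills the trivial-character part `V ⧸ I_D V`).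
Then on the `χ`-part `t • m ∈ λ • (χ-part)`. -/
theorem chiQ_st (ρ : D →* Module.End T V) (χ : D →* O) (lam : O)
    (hχ : ∀ d, ∃ c : O, χ d - 1 = lam * c) (t : T)
    (hkill : ∀ x : V, t • x ∈ chiRel ρ (1 : D →* T)) (y : V ⧸ chiRel ρ (chiT T χ)) :
    ∃ y' : V ⧸ chiRel ρ (chiT T χ), t • y = algebraMap O T lam • y' := by
  have h := chiMap_mem_lamSub ρ (chiT T χ) (1 : D →* T) (algebraMap O T lam)
    (fun d => by
      obtain ⟨c, hc⟩ := hχ d
      exact ⟨algebraMap O T c, by
        rw [chiT_apply, MonoidHom.one_apply, ← map_mul, ← hc, map_sub, map_one]⟩)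
    (t • (1 : Module.End T V)) (commute_smul_id ρ t)
    (fun x => by
      rw [LinearMap.smul_apply, Module.End.one_apply]
      exact hkill x) y
  rw [chiMap_smul_id] at h
  exact mem_lamSub_iff.mp h

/-- The same with the hypothesis on the trivial-character part `M¹ = V ⧸ I_D V` itself. -/
theorem chiQ_st' (ρ : D →* Module.End T V) (χ : D →* O) (lam : O)
    (hχ : ∀ d, ∃ c : O, χ d - 1 = lam * c) (t : T)
    (hkill : ∀ m : V ⧸ chiRel ρ (1 : D →* T), t • m = 0) (y : V ⧸ chiRel ρ (chiT T χ)) :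
    ∃ y' : V ⧸ chiRel ρ (chiT T χ), t • y = algebraMap O T lam • y' := by
  refine chiQ_st ρ χ lam hχ t (fun x => ?_) y
  have := hkill (Submodule.Quotient.mk x)
  rwa [← Submodule.Quotient.mk_smul, Submodule.Quotient.mk_eq_zero] at this

end ST

/-! ## The hypotheses `_hX`, `_hrange` of `AlgStatement` descend to the `χ`-part -/

section Descend

variable {T : Type*} [CommRing T] {V : Type*} [AddCommGroup V] [Module T V]
  {D₁ D₂ : Type*} [Monoid D₁] [Monoid D₂]
  (ρ : D₁ × D₂ →* Module.End T V) (χ : D₁ →* T)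

theorem chiRho_eq_one (d₂ : D₂) (h : ρ (1, d₂) = 1) : chiRho ρ χ d₂ = 1 := by
  refine LinearMap.ext fun y => ?_
  induction y using Submodule.Quotient.induction_on with
  | H x => rw [chiRho_mk, h, Module.End.one_apply, Module.End.one_apply]

theorem chiRho_pow_eq_one (d₂ : D₂) (N : ℕ) (h : ρ (1, d₂) ^ N = 1) :
    chiRho ρ χ d₂ ^ N = 1 := by
  rw [← map_pow]
  refine chiRho_eq_one ρ χ (d₂ ^ N) ?_
  have : ((1, d₂) : D₁ × D₂) ^ N = (1, d₂ ^ N) := by
    rw [Prod.pow_mk, one_pow]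
  rw [← this, map_pow, h]

/-- The comparison `(w - 1) V = (ρ (1,d₂) - 1) V` descends to the `χ`-part. -/
theorem chiQ_range (w : T) (d₂ : D₂)
    (hr : ∀ y : V, (∃ y' : V, y = w • y' - y') ↔ ∃ y' : V, y = ρ (1, d₂) y' - y')
    (y : V ⧸ chiRel (rhoL ρ) χ) :
    (∃ y' : V ⧸ chiRel (rhoL ρ) χ, y = w • y' - y') ↔
      ∃ y' : V ⧸ chiRel (rhoL ρ) χ, y = chiRho ρ χ d₂ y' - y' := by
  constructor
  · rintro ⟨y', rfl⟩
    induction y' using Submodule.Quotient.induction_on with
    | H x' =>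
      obtain ⟨x'', hx''⟩ := (hr (w • x' - x')).mp ⟨x', rfl⟩
      refine ⟨Submodule.Quotient.mk x'', ?_⟩
      rw [chiRho_mk, ← Submodule.Quotient.mk_smul, ← Submodule.Quotient.mk_sub,
        ← Submodule.Quotient.mk_sub, hx'']
  · rintro ⟨y', rfl⟩
    induction y' using Submodule.Quotient.induction_on with
    | H x' =>
      obtain ⟨x'', hx''⟩ := (hr (ρ (1, d₂) x' - x')).mpr ⟨x', rfl⟩
      refine ⟨Submodule.Quotient.mk x'', ?_⟩
      rw [chiRho_mk, ← Submodule.Quotient.mk_smul, ← Submodule.Quotient.mk_sub,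
        ← Submodule.Quotient.mk_sub, hx'']

/-- Every identity between an element of `T` and a combination of diamond operators descends. -/
theorem chiQ_lgc (t : T) (d₂ d₂' : D₂)
    (h : ∀ y : V, t • y = ρ (1, d₂) y + ρ (1, d₂') y) (y : V ⧸ chiRel (rhoL ρ) χ) :
    t • y = chiRho ρ χ d₂ y + chiRho ρ χ d₂' y := by
  induction y using Submodule.Quotient.induction_on with
  | H x =>
    rw [chiRho_mk, chiRho_mk, ← Submodule.Quotient.mk_smul, ← Submodule.Quotient.mk_add, h]

end Descend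

/-! ## Freeness in the exponent-indexed `∃!`-shape -/

section Gen

variable {O : Type*} [CommRing O] {T : Type*} [CommRing T] [Algebra O T]
  {V : Type*} [AddCommGroup V] [Module T V] [Module O V] [IsScalarTower O T V]
  {D₁ D₂ : Type*} [Monoid D₁] [Monoid D₂] {E₁ E₂ ι : Type*}
  (ρ : D₁ × D₂ →* Module.End T V) (χ : D₁ →* O)
  (γ₁ : E₁ → D₁) (γ₂ : E₂ → D₂) (b : ι → V)
  (B : Module.Basis ((E₁ × E₂) × ι) O V)
  (hB : ∀ z, B z = ρ (γ₁ z.1.1, γ₂ z.1.2) (b z.2))
  (hσ : ∀ (d : D₁) (e₁ : E₁), ∃ e₁' : E₁,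
    ρ (d * γ₁ e₁, 1) = ρ (γ₁ e₁', 1) ∧ χ (d * γ₁ e₁) = χ (γ₁ e₁'))
  (e₀ : E₁) (h1 : ρ (γ₁ e₀, 1) = 1) (h1χ : χ (γ₁ e₀) = 1)

/-- The coordinate map `V → ⨁_{E₂ × ι} O`, `ρ (γ₁ e₁, γ₂ e₂) (b i) ↦ χ (γ₁ e₁) · e_{(e₂,i)}`. -/
noncomputable def genCoord : V →ₗ[O] (E₂ × ι →₀ O) :=
  B.constr O (fun z : (E₁ × E₂) × ι => Finsupp.single (z.1.2, z.2) (χ (γ₁ z.1.1)))

theorem genCoord_basis (z : (E₁ × E₂) × ι) :
    genCoord χ γ₁ B (B z) = Finsupp.single (z.1.2, z.2) (χ (γ₁ z.1.1)) := by
  rw [genCoord, Module.Basis.constr_basis]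

include hB hσ in
theorem genCoord_rho (d : D₁) (x : V) :
    genCoord χ γ₁ B (ρ (d, 1) x) = χ d • genCoord χ γ₁ B x := by
  have : (genCoord χ γ₁ B).comp ((ρ (d, 1)).restrictScalars O) = χ d • genCoord χ γ₁ B := by
    refine B.ext fun z => ?_
    obtain ⟨⟨e₁, e₂⟩, i⟩ := z
    obtain ⟨e₁', hρ, hχ⟩ := hσ d e₁
    have h1 : ρ (d, 1) (B ((e₁, e₂), i)) = B ((e₁', e₂), i) := by
      rw [hB, hB, ← Module.End.mul_apply, ← map_mul, Prod.mk_mul_mk, one_mul]
      change ρ (d * γ₁ e₁, γ₂ e₂) (b i) = ρ (γ₁ e₁', γ₂ e₂) (b i)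
      rw [rho_eq_mul ρ (d * γ₁ e₁), rho_eq_mul ρ (γ₁ e₁'), hρ]
    rw [LinearMap.comp_apply, LinearMap.restrictScalars_apply, h1, LinearMap.smul_apply,
      genCoord_basis, genCoord_basis, Finsupp.smul_single, smul_eq_mul, ← map_mul, hχ]
  exact congrArg (fun f : V →ₗ[O] (E₂ × ι →₀ O) => f x) this

include hB hσ in
theorem genCoord_eq_zero_of_mem {x : V} (hx : x ∈ chiRel (rhoL ρ) (chiT T χ)) :
    genCoord χ γ₁ B x = 0 := by
  refine chiRel_add_induction (rhoL ρ) (chiT T χ) (P := fun x => genCoord χ γ₁ B x = 0)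
    ?_ (map_zero _) (fun a c ha hc => by rw [map_add, ha, hc, add_zero]) hx
  intro d y
  rw [map_sub, rhoL_apply, genCoord_rho ρ χ γ₁ γ₂ b B hB hσ, chiT_apply, algebraMap_smul,
    map_smul, sub_self]

/-- The section `⨁_{E₂ × ι} O → V`, `e_{(e₂,i)} ↦ ρ (1, γ₂ e₂) (b i)`. -/
noncomputable def genSec : (E₂ × ι →₀ O) →ₗ[O] V :=
  Finsupp.linearCombination O (fun w : E₂ × ι => ρ (1, γ₂ w.1) (b w.2))

theorem genSec_single (w : E₂ × ι) (c : O) :
    genSec ρ γ₂ b (Finsupp.single w c) = c • ρ (1, γ₂ w.1) (b w.2) := by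
  rw [genSec, Finsupp.linearCombination_single]

include hB h1 h1χ in
theorem genCoord_genSec (f : E₂ × ι →₀ O) : genCoord χ γ₁ B (genSec ρ γ₂ b f) = f := by
  have : (genCoord χ γ₁ B).comp (genSec ρ γ₂ b) = LinearMap.id := by
    refine Finsupp.lhom_ext fun w c => ?_
    have h2 : ρ (1, γ₂ w.1) (b w.2) = B ((e₀, w.1), w.2) := by
      rw [hB]
      change ρ (1, γ₂ w.1) (b w.2) = ρ (γ₁ e₀, γ₂ w.1) (b w.2)
      rw [rho_eq_mul ρ (γ₁ e₀), h1, one_mul]
    rw [LinearMap.comp_apply, genSec_single, map_smul, h2, genCoord_basis, h1χ,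
      Finsupp.smul_single, smul_eq_mul, mul_one, LinearMap.id_apply]
  exact congrArg (fun g : (E₂ × ι →₀ O) →ₗ[O] (E₂ × ι →₀ O) => g f) this

include hB in
theorem sub_genSec_genCoord_mem (x : V) :
    x - genSec ρ γ₂ b (genCoord χ γ₁ B x) ∈ chiRel (rhoL ρ) (chiT T χ) := by
  have hmem : x ∈ ((chiRel (rhoL ρ) (chiT T χ)).restrictScalars O).comap
      (LinearMap.id - (genSec ρ γ₂ b).comp (genCoord χ γ₁ B)) := by
    have htop : Submodule.span O (Set.range B) ≤
        ((chiRel (rhoL ρ) (chiT T χ)).restrictScalars O).comap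
          (LinearMap.id - (genSec ρ γ₂ b).comp (genCoord χ γ₁ B)) := by
      refine Submodule.span_le.mpr ?_
      rintro _ ⟨⟨⟨e₁, e₂⟩, i⟩, rfl⟩
      rw [SetLike.mem_coe, Submodule.mem_comap, LinearMap.sub_apply, LinearMap.id_apply,
        LinearMap.comp_apply, genCoord_basis, genSec_single, hB,
        Submodule.restrictScalars_mem]
      have h2 : ρ (γ₁ e₁, γ₂ e₂) (b i) = rhoL ρ (γ₁ e₁) (ρ (1, γ₂ e₂) (b i)) := by
        rw [rhoL_apply, ← Module.End.mul_apply, ← rho_eq_mul]
      have h3 : χ (γ₁ e₁) • ρ (1, γ₂ e₂) (b i) =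
          chiT T χ (γ₁ e₁) • ρ (1, γ₂ e₂) (b i) := by
        rw [chiT_apply, algebraMap_smul]
      change ρ (γ₁ e₁, γ₂ e₂) (b i) - χ (γ₁ e₁) • ρ (1, γ₂ e₂) (b i) ∈ _
      rw [h2, h3]
      exact sub_mem_chiRel (rhoL ρ) (chiT T χ) (γ₁ e₁) _
    exact htop (by rw [B.span_eq]; exact Submodule.mem_top)
  simpa using hmem

include hB hσ h1 h1χ in
/-- **Freeness of the `χ`-part, `∃!`-shape, `Finsupp` coefficients.** -/
theorem chiQ_existsUnique_finsupp (y : V ⧸ chiRel (rhoL ρ) (chiT T χ)) :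
    ∃! f : E₂ × ι →₀ O, y = Submodule.Quotient.mk (genSec ρ γ₂ b f) := by
  induction y using Submodule.Quotient.induction_on with
  | H x =>
    refine ⟨genCoord χ γ₁ B x, ?_, ?_⟩
    · change Submodule.Quotient.mk x = Submodule.Quotient.mk _
      rw [← sub_eq_zero, ← Submodule.Quotient.mk_sub, Submodule.Quotient.mk_eq_zero]
      exact sub_genSec_genCoord_mem ρ χ γ₁ γ₂ b B hB x
    · intro f hf
      have hf' : x - genSec ρ γ₂ b f ∈ chiRel (rhoL ρ) (chiT T χ) := by
        rw [← Submodule.Quotient.mk_eq_zero, Submodule.Quotient.mk_sub, sub_eq_zero]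
        exact hf
      have h0 := genCoord_eq_zero_of_mem ρ χ γ₁ γ₂ b B hB hσ hf'
      rw [map_sub, genCoord_genSec ρ χ γ₁ γ₂ b B hB e₀ h1 h1χ, sub_eq_zero] at h0
      exact h0.symm

theorem mk_genSec [Fintype E₂] [Fintype ι] (f : E₂ × ι →₀ O) :
    (Submodule.Quotient.mk (genSec ρ γ₂ b f) : V ⧸ chiRel (rhoL ρ) (chiT T χ)) =
      ∑ i, ∑ e, algebraMap O T (f (e, i)) •
        chiRho ρ (chiT T χ) (γ₂ e) (Submodule.Quotient.mk (b i)) := by
  have h1 : genSec ρ γ₂ b f = ∑ w : E₂ × ι, f w • ρ (1, γ₂ w.1) (b w.2) := by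
    rw [genSec, Finsupp.linearCombination_apply]
    exact Finsupp.sum_fintype f _ (fun i => zero_smul O _)
  rw [h1, Fintype.sum_prod_type_right]
  rw [← Submodule.mkQ_apply, map_sum]
  refine Finset.sum_congr rfl fun i _ => ?_
  rw [map_sum]
  refine Finset.sum_congr rfl fun e _ => ?_
  rw [Submodule.mkQ_apply, chiRho_mk, ← algebraMap_smul T (f (e, i)) (ρ (1, γ₂ e) (b i)),
    Submodule.Quotient.mk_smul]

include hB hσ h1 h1χ in
/-- **Freeness of the `χ`-part in the shape of `AlgStatement`/`AutLevel.free`.**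
If the `ρ (γ₁ e₁, γ₂ e₂) (b i)` form an `O`-basis of `V`, every element of the `χ`-part is
uniquely `∑ i, ∑ e, c i e • ρ (1, γ₂ e) [b i]`. -/
theorem chiQ_existsUnique [Fintype E₂] [Fintype ι] (y : V ⧸ chiRel (rhoL ρ) (chiT T χ)) :
    ∃! c : ι → E₂ → O, y = ∑ i, ∑ e, algebraMap O T (c i e) •
      chiRho ρ (chiT T χ) (γ₂ e) (Submodule.Quotient.mk (b i)) := by
  classical
  obtain ⟨f, hf, hfu⟩ := chiQ_existsUnique_finsupp ρ χ γ₁ γ₂ b B hB hσ e₀ h1 h1χ y
  refine ⟨fun i e => f (e, i), ?_, ?_⟩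
  · change y = _
    rw [hf, mk_genSec]
  · intro c hc
    have hc' : y = Submodule.Quotient.mk
        (genSec ρ γ₂ b (Finsupp.equivFunOnFinite.symm (fun w : E₂ × ι => c w.2 w.1))) := by
      rw [mk_genSec, hc]
      rfl
    have := hfu _ hc'
    funext i e
    rw [← this]
    rfl

end Gen

/-! ## From the `∃!`-shape to a basis -/

section OfExistsUnique

variable {O : Type*} [CommRing O] {T : Type*} [CommRing T] [Algebra O T]
  {V : Type*} [AddCommGroup V] [Module T V] [Module O V] [IsScalarTower O T V]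
  {E ι : Type*} [Fintype E] [Fintype ι]

/-- A family which represents every element uniquely is a basis. -/
theorem exists_basis_of_existsUnique (F : E × ι → V)
    (hV : ∀ y : V, ∃! c : ι → E → O, y = ∑ i, ∑ e, algebraMap O T (c i e) • F (e, i)) :
    ∃ B : Module.Basis (E × ι) O V, ∀ z, B z = F z := by
  classical
  have hsum : ∀ f : E × ι → O, Fintype.linearCombination O F f =
      ∑ i, ∑ e, algebraMap O T (f (e, i)) • F (e, i) := by
    intro f
    rw [Fintype.linearCombination_apply, Fintype.sum_prod_type_right]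
    refine Finset.sum_congr rfl fun i _ => Finset.sum_congr rfl fun e _ => ?_
    rw [algebraMap_smul]
  have hbij : Function.Bijective (Fintype.linearCombination O F) := by
    constructor
    · rw [← LinearMap.ker_eq_bot, LinearMap.ker_eq_bot']
      intro f hf
      obtain ⟨c, -, hcu⟩ := hV 0
      have h1 : (fun i e => f (e, i)) = c := hcu _ (by
        change 0 = ∑ i, ∑ e, algebraMap O T (f (e, i)) • F (e, i)
        rw [← hsum f, hf])
      have h2 : (fun (_ : ι) (_ : E) => (0 : O)) = c := hcu _ (by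
        change 0 = ∑ i : ι, ∑ e : E, algebraMap O T (0 : O) • F (e, i)
        simp only [map_zero, zero_smul, Finset.sum_const_zero])
      funext z
      obtain ⟨e, i⟩ := z
      have := congrFun (congrFun (h1.trans h2.symm) i) e
      simpa using this
    · intro y
      obtain ⟨c, hc, -⟩ := hV y
      refine ⟨fun z => c z.2 z.1, ?_⟩
      rw [hsum]
      exact hc.symm
  refine ⟨Module.Basis.ofEquivFun (LinearEquiv.ofBijective _ hbij).symm, fun z => ?_⟩
  rw [Module.Basis.coe_ofEquivFun, LinearEquiv.symm_symm]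
  change (LinearEquiv.ofBijective (Fintype.linearCombination O F) hbij) (Pi.single z 1) = F z
  rw [LinearEquiv.ofBijective_apply, Fintype.linearCombination_apply]
  rw [Finset.sum_eq_single z]
  · rw [Pi.single_eq_same, one_smul]
  · intro w _ hw
    rw [Pi.single_eq_of_ne hw, zero_smul]
  · intro h
    exact absurd (Finset.mem_univ _) h

end OfExistsUnique

/-! ## Reindexing an `∃!`-basis -/

theorem existsUnique_reindex {O : Type*} [CommRing O] {T : Type*} [CommRing T] [Algebra O T]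
    {V : Type*} [AddCommGroup V] [Module T V] {ι E E' : Type*} [Fintype ι] [Fintype E]
    [Fintype E'] (ψ : E' ≃ E) (F : E → ι → V)
    (h : ∀ y : V, ∃! c : ι → E → O, y = ∑ i, ∑ e, algebraMap O T (c i e) • F e i) (y : V) :
    ∃! c : ι → E' → O, y = ∑ i, ∑ e, algebraMap O T (c i e) • F (ψ e) i := by
  obtain ⟨c, hc, hcu⟩ := h y
  refine ⟨fun i e' => c i (ψ e'), ?_, ?_⟩
  · change y = ∑ i, ∑ e', algebraMap O T (c i (ψ e')) • F (ψ e') i
    rw [hc]
    refine Finset.sum_congr rfl fun i _ => ?_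
    exact (Equiv.sum_comp ψ (fun e => algebraMap O T (c i e) • F e i)).symm
  · intro c' hc'
    have h1 : (fun i e => c' i (ψ.symm e)) = c := by
      refine hcu _ ?_
      change y = ∑ i, ∑ e, algebraMap O T (c' i (ψ.symm e)) • F e i
      rw [hc']
      refine Finset.sum_congr rfl fun i _ => ?_
      rw [← Equiv.sum_comp ψ (fun e => algebraMap O T (c' i (ψ.symm e)) • F e i)]
      refine Finset.sum_congr rfl fun e' _ => ?_
      rw [Equiv.symm_apply_apply]
    funext i e'
    have := congrFun (congrFun h1 i) (ψ e')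
    simpa using this

/-! ## Reduction of exponents in a product of cyclic groups -/

section Cyc

variable {k : ℕ} {G₁ : Fin k → Type*} [∀ q, CommGroup (G₁ q)] {A : Type*} [Monoid A]

theorem map_pow_fun_eq_one (F : (∀ q, G₁ q) →* A) (g₁ : ∀ q, G₁ q) (M : Fin k → ℕ)
    (hF : ∀ q, F (Pi.mulSingle q (g₁ q)) ^ M q = 1) (t : Fin k → ℕ) :
    F (fun q => (g₁ q ^ M q) ^ t q) = 1 := by
  classical
  have hmem : (fun q => (g₁ q ^ M q) ^ t q) ∈ MonoidHom.mker F := by
    have h1 : (fun q => (g₁ q ^ M q) ^ t q) =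
        ∏ q, Pi.mulSingle q ((g₁ q ^ M q) ^ t q) :=
      (Finset.univ_prod_mulSingle (fun q => (g₁ q ^ M q) ^ t q)).symm
    rw [h1]
    refine Submonoid.prod_mem _ fun q _ => ?_
    rw [MonoidHom.mem_mker, Pi.mulSingle_pow, Pi.mulSingle_pow, map_pow, map_pow, hF, one_pow]
  exact hmem

/-- **Translation of exponents.**  `G₁ q` generated by `g₁ q`, `F` a monoid homomorphism on
`∏ G₁ q` with `F (g₁ q) ^ M q = 1`: every translate `d * g₁ ^ e` has the same value under `F` as
some `g₁ ^ e'` with `e' q < M q`. -/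
theorem exists_exp_translate (F : (∀ q, G₁ q) →* A) (g₁ : ∀ q, G₁ q) (M : Fin k → ℕ)
    (hM : ∀ q, 0 < M q) (hgen : ∀ (q : Fin k) (a : G₁ q), ∃ s : ℕ, a = g₁ q ^ s)
    (hF : ∀ q, F (Pi.mulSingle q (g₁ q)) ^ M q = 1)
    (d : ∀ q, G₁ q) (e : ∀ q, Fin (M q)) :
    ∃ e' : ∀ q, Fin (M q),
      F (d * fun q => g₁ q ^ (e q : ℕ)) = F (fun q => g₁ q ^ (e' q : ℕ)) := by
  choose s hs using fun q => hgen q (d q)
  refine ⟨fun q => ⟨(s q + e q) % M q, Nat.mod_lt _ (hM q)⟩, ?_⟩
  have h1 : (d * fun q => g₁ q ^ (e q : ℕ)) =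
      (fun q => g₁ q ^ ((s q + e q) % M q)) * fun q => (g₁ q ^ M q) ^ ((s q + e q) / M q) := by
    funext q
    rw [Pi.mul_apply, Pi.mul_apply, hs q, ← pow_add, ← pow_mul, ← pow_add, Nat.mod_add_div]
  rw [h1, map_mul, map_pow_fun_eq_one F g₁ M hF, mul_one]

end Cyc

end Fermat.Agent.S38.H354
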