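import Mathlib

/-!
# Row HARD (row 37, hard case), cell HECKE: the `χ`-part of a module — abstract core (helper354)

Setting of the board `coord/HARD.md` (helper995), §0.1 (1): the Betti module `e H` at level
`Γ₀(N_min) ∩ Γ_H(Π ∪ Q)` is free over `O[Δ_Π × Δ_Q]` for the diamond action (`S59/MFree`,
`FreeConclusion`).  For a character `χ : Δ_Π → Oˣ` of `p`-power order (so `χ ≡ 1 mod λ`) the
`χ`-part is the quotient `M^χ := e H / (d x - χ(d) x : d ∈ Δ_Π)`.

This file is Mathlib-only and proves, for an ARBITRARY `O`-module `V` with commuting operators: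

* `chiRel ρ χ`                 : the submodule of `χ`-relations;
* `map_mem_chiRel`             : it is stable under every endomorphism commuting with `ρ`;
* `chiRel_sup_smul_eq`         : `chiRel ρ χ + λ V = chiRel ρ χ' + λ V` if `χ ≡ χ' mod λ`;
* `chiModEquiv`                : hence `(V/χ)/λ ≃ (V/χ')/λ`, the class of `x` going to the class
                                  of `x` (so it is equivariant for EVERY operator of `V` which
                                  commutes with `ρ`: Hecke operators, diamond operators at `Q`);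
* `mapQ_mem_smul_of_forall_mem`: (ST)-transfer: an operator `h` commuting with `ρ` which kills
                                  `V/χ'` maps `V/χ` into `λ (V/χ)`;
* `chi_basis`                  : if `(ρ (d₁,d₂) (b i))` is an `O`-basis of `V`
                                  (`V` free over `O[D₁ × D₂]`), then the classes of the
                                  `ρ (1,d₂) (b i)` form an `O`-basis of `V/χ`
                                  (`V/χ` is free over `O[D₂]`, same basis `b`).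
-/

set_option autoImplicit false
set_option linter.unusedSectionVars false

namespace Fermat.Agent.S38.H354

variable {O : Type*} [CommRing O] {V : Type*} [AddCommGroup V] [Module O V]

/-! ## The relations -/

section Rel

variable {D : Type*} [Monoid D]

/-- The `χ`-relations: the `O`-span of the elements `ρ d x - χ d • x`. -/
def chiRel (ρ : D →* Module.End O V) (χ : D →* O) : Submodule O V :=
  Submodule.span O {w | ∃ (d : D) (x : V), w = ρ d x - χ d • x}

theorem sub_mem_chiRel (ρ : D →* Module.End O V) (χ : D →* O) (d : D) (x : V) :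
    ρ d x - χ d • x ∈ chiRel ρ χ :=
  Submodule.subset_span ⟨d, x, rfl⟩

/-- An endomorphism commuting with the `ρ d` preserves the `χ`-relations. -/
theorem map_mem_chiRel (ρ : D →* Module.End O V) (χ : D →* O) (h : Module.End O V)
    (hh : ∀ d, Commute h (ρ d)) {x : V} (hx : x ∈ chiRel ρ χ) : h x ∈ chiRel ρ χ := by
  induction hx using Submodule.span_induction with
  | mem w hw =>
    obtain ⟨d, y, rfl⟩ := hw
    have h1 : h (ρ d y) = ρ d (h y) := by
      have := congrArg (fun f : Module.End O V => f y) (hh d).eq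
      simpa only [Module.End.mul_apply] using this
    rw [map_sub, map_smul, h1]
    exact sub_mem_chiRel ρ χ d (h y)
  | zero => rw [map_zero]; exact Submodule.zero_mem _
  | add a b _ _ ha hb => rw [map_add]; exact Submodule.add_mem _ ha hb
  | smul c a _ ha => rw [map_smul]; exact Submodule.smul_mem _ c ha

theorem chiRel_le_comap (ρ : D →* Module.End O V) (χ : D →* O) (h : Module.End O V)
    (hh : ∀ d, Commute h (ρ d)) : chiRel ρ χ ≤ (chiRel ρ χ).comap h :=
  fun _ hx => map_mem_chiRel ρ χ h hh hx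

/-- `λ V`. -/
abbrev lamSub (lam : O) (V : Type*) [AddCommGroup V] [Module O V] : Submodule O V :=
  Ideal.span {lam} • (⊤ : Submodule O V)

theorem smul_mem_lamSub (lam : O) (x : V) : lam • x ∈ lamSub lam V :=
  Submodule.smul_mem_smul (Ideal.mem_span_singleton_self lam) Submodule.mem_top

theorem mem_lamSub_iff {lam : O} {x : V} : x ∈ lamSub lam V ↔ ∃ y : V, x = lam • y := by
  constructor
  · intro hx
    refine Submodule.smul_induction_on hx ?_ ?_
    · intro r hr n _
      obtain ⟨c, rfl⟩ := Ideal.mem_span_singleton'.mp hr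
      exact ⟨c • n, by rw [smul_smul, mul_comm]⟩
    · rintro a b ⟨ya, rfl⟩ ⟨yb, rfl⟩
      exact ⟨ya + yb, by rw [smul_add]⟩
  · rintro ⟨y, rfl⟩
    exact smul_mem_lamSub lam y

/-- Congruent characters have the same relations modulo `λ`: one inclusion. -/
theorem chiRel_le_sup (ρ : D →* Module.End O V) (χ χ' : D →* O) (lam : O)
    (hχ : ∀ d, ∃ c : O, χ d - χ' d = lam * c) :
    chiRel ρ χ ≤ chiRel ρ χ' ⊔ lamSub lam V := by
  refine Submodule.span_le.mpr ?_
  rintro w ⟨d, x, rfl⟩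
  obtain ⟨c, hc⟩ := hχ d
  have : ρ d x - χ d • x = (ρ d x - χ' d • x) + lam • (-(c • x)) := by
    have h1 : χ d = χ' d + lam * c := by rw [← hc]; ring
    rw [h1, add_smul, mul_smul, smul_neg]
    abel
  rw [this]
  exact Submodule.add_mem_sup (sub_mem_chiRel ρ χ' d x) (smul_mem_lamSub lam _)

/-- Congruent characters have the same relations modulo `λ`. -/
theorem chiRel_sup_smul_eq (ρ : D →* Module.End O V) (χ χ' : D →* O) (lam : O)
    (hχ : ∀ d, ∃ c : O, χ d - χ' d = lam * c) :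
    chiRel ρ χ ⊔ lamSub lam V = chiRel ρ χ' ⊔ lamSub lam V := by
  apply le_antisymm
  · exact sup_le (chiRel_le_sup ρ χ χ' lam hχ) le_sup_right
  · refine sup_le (chiRel_le_sup ρ χ' χ lam ?_) le_sup_right
    intro d
    obtain ⟨c, hc⟩ := hχ d
    exact ⟨-c, by rw [mul_neg, ← hc]; ring⟩

/-- Elementwise form: modulo `λ V` every `χ`-relation is a `χ'`-relation. -/
theorem exists_add_of_mem_chiRel (ρ : D →* Module.End O V) (χ χ' : D →* O) (lam : O)
    (hχ : ∀ d, ∃ c : O, χ d - χ' d = lam * c) {x : V} (hx : x ∈ chiRel ρ χ) :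
    ∃ y ∈ chiRel ρ χ', ∃ z : V, x = y + lam • z := by
  obtain ⟨y, hy, w, hw, rfl⟩ := Submodule.mem_sup.mp (chiRel_le_sup ρ χ χ' lam hχ hx)
  obtain ⟨z, rfl⟩ := mem_lamSub_iff.mp hw
  exact ⟨y, hy, z, rfl⟩

end Rel

/-! ## The `χ`-part as a quotient; comparison modulo `λ` -/

section Quot

variable {D : Type*} [Monoid D] (ρ : D →* Module.End O V) (χ χ' : D →* O) (lam : O)

/-- The endomorphism of the `χ`-part `V ⧸ chiRel ρ χ` induced by an endomorphism of `V` commuting
with `ρ`. -/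
def chiMap (h : Module.End O V) (hh : ∀ d, Commute h (ρ d)) : Module.End O (V ⧸ chiRel ρ χ) :=
  (chiRel ρ χ).mapQ (chiRel ρ χ) h (chiRel_le_comap ρ χ h hh)

@[simp] theorem chiMap_mk (h : Module.End O V) (hh : ∀ d, Commute h (ρ d)) (x : V) :
    chiMap ρ χ h hh (Submodule.Quotient.mk x) = Submodule.Quotient.mk (h x) := rfl

/-- On the `χ`-part, `ρ d` is multiplication by `χ d`. -/
theorem mk_rho_eq (d : D) (x : V) :
    (Submodule.Quotient.mk (ρ d x) : V ⧸ chiRel ρ χ) = χ d • Submodule.Quotient.mk x := by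
  rw [← Submodule.Quotient.mk_smul, ← sub_eq_zero, ← Submodule.Quotient.mk_sub,
    Submodule.Quotient.mk_eq_zero]
  exact sub_mem_chiRel ρ χ d x

theorem lamSub_quot_eq (S : Submodule O V) :
    lamSub lam (V ⧸ S) = (lamSub lam V).map S.mkQ := by
  rw [Submodule.map_smul'', Submodule.map_top, Submodule.range_mkQ]

/-- **(ST)-transfer.**  `χ ≡ χ' mod λ`, `h` commutes with `ρ` and kills the `χ'`-part.  Then `h`
maps the `χ`-part into `λ ·` (`χ`-part). -/
theorem chiMap_mem_lamSub (hχ : ∀ d, ∃ c : O, χ d - χ' d = lam * c)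
    (h : Module.End O V) (hh : ∀ d, Commute h (ρ d)) (hkill : ∀ x, h x ∈ chiRel ρ χ')
    (y : V ⧸ chiRel ρ χ) : chiMap ρ χ h hh y ∈ lamSub lam (V ⧸ chiRel ρ χ) := by
  induction y using Submodule.Quotient.induction_on with
  | H x =>
    obtain ⟨r, hr, z, hz⟩ := exists_add_of_mem_chiRel ρ χ' χ lam (fun d => by
      obtain ⟨c, hc⟩ := hχ d
      exact ⟨-c, by rw [mul_neg, ← hc]; ring⟩) (hkill x)
    rw [chiMap_mk, hz, Submodule.Quotient.mk_add, (Submodule.Quotient.mk_eq_zero _).mpr hr,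
      zero_add, Submodule.Quotient.mk_smul]
    exact smul_mem_lamSub lam _

/-- `(V/χ)/λ ≃ V/(χ-relations + λ V)`. -/
noncomputable def chiModEquivSup :
    ((V ⧸ chiRel ρ χ) ⧸ lamSub lam (V ⧸ chiRel ρ χ)) ≃ₗ[O] V ⧸ (chiRel ρ χ ⊔ lamSub lam V) :=
  (Submodule.quotEquivOfEq _ _ (lamSub_quot_eq lam (chiRel ρ χ))) ≪≫ₗ
    Submodule.quotientQuotientEquivQuotientSup (chiRel ρ χ) (lamSub lam V)

theorem chiModEquivSup_mk_mk (x : V) :
    chiModEquivSup ρ χ lam (Submodule.Quotient.mk (Submodule.Quotient.mk x)) =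
      Submodule.Quotient.mk x := rfl

/-- **Comparison modulo `λ`.**  If `χ ≡ χ' mod λ` then `(V/χ)/λ ≃ (V/χ')/λ`, the class of `x`
going to the class of `x`. -/
noncomputable def chiModEquiv (hχ : ∀ d, ∃ c : O, χ d - χ' d = lam * c) :
    ((V ⧸ chiRel ρ χ) ⧸ lamSub lam (V ⧸ chiRel ρ χ)) ≃ₗ[O]
      ((V ⧸ chiRel ρ χ') ⧸ lamSub lam (V ⧸ chiRel ρ χ')) :=
  chiModEquivSup ρ χ lam ≪≫ₗ
    Submodule.quotEquivOfEq _ _ (chiRel_sup_smul_eq ρ χ χ' lam hχ) ≪≫ₗ
    (chiModEquivSup ρ χ' lam).symm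

theorem chiModEquiv_mk_mk (hχ : ∀ d, ∃ c : O, χ d - χ' d = lam * c) (x : V) :
    chiModEquiv ρ χ χ' lam hχ (Submodule.Quotient.mk (Submodule.Quotient.mk x)) =
      Submodule.Quotient.mk (Submodule.Quotient.mk x) := by
  unfold chiModEquiv
  rw [LinearEquiv.trans_apply, LinearEquiv.trans_apply, chiModEquivSup_mk_mk,
    Submodule.quotEquivOfEq_mk, LinearEquiv.symm_apply_eq, chiModEquivSup_mk_mk]

/-- The comparison modulo `λ` is equivariant for every endomorphism of `V` commuting with `ρ`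
(Hecke operators, the other diamond operators). -/
theorem chiModEquiv_equivariant (hχ : ∀ d, ∃ c : O, χ d - χ' d = lam * c)
    (h : Module.End O V) (hh : ∀ d, Commute h (ρ d)) (x : V) :
    chiModEquiv ρ χ χ' lam hχ
        (Submodule.Quotient.mk (chiMap ρ χ h hh (Submodule.Quotient.mk x))) =
      Submodule.Quotient.mk (chiMap ρ χ' h hh (Submodule.Quotient.mk x)) := by
  rw [chiMap_mk, chiMap_mk, chiModEquiv_mk_mk]

end Quot

/-! ## Freeness of the `χ`-part over the second factor -/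

section Basis

variable {D₁ D₂ ι : Type*} [Monoid D₁] [Monoid D₂]
  (ρ : D₁ × D₂ →* Module.End O V) (χ : D₁ →* O) (b : ι → V)

/-- The action of the first factor. -/
def rhoL : D₁ →* Module.End O V := ρ.comp (MonoidHom.inl D₁ D₂)

/-- The action of the second factor. -/
def rhoR : D₂ →* Module.End O V := ρ.comp (MonoidHom.inr D₁ D₂)

@[simp] theorem rhoL_apply (d : D₁) : rhoL ρ d = ρ (d, 1) := rfl

@[simp] theorem rhoR_apply (d : D₂) : rhoR ρ d = ρ (1, d) := rfl

theorem rho_eq_mul (d₁ : D₁) (d₂ : D₂) : ρ (d₁, d₂) = ρ (d₁, 1) * ρ (1, d₂) := by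
  rw [← map_mul, Prod.mk_mul_mk, mul_one, one_mul]

theorem commute_rhoR_rhoL (d₂ : D₂) (d₁ : D₁) : Commute (rhoR ρ d₂) (rhoL ρ d₁) := by
  rw [rhoR_apply, rhoL_apply]
  change ρ (1, d₂) * ρ (d₁, 1) = ρ (d₁, 1) * ρ (1, d₂)
  rw [← map_mul, ← map_mul, Prod.mk_mul_mk, Prod.mk_mul_mk, mul_one, one_mul, mul_one, one_mul]

/-- The action of the second factor on the `χ`-part (for the first factor). -/
def chiRho : D₂ →* Module.End O (V ⧸ chiRel (rhoL ρ) χ) where
  toFun d := chiMap (rhoL ρ) χ (rhoR ρ d) (commute_rhoR_rhoL ρ d)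
  map_one' := by
    refine LinearMap.ext fun y => ?_
    induction y using Submodule.Quotient.induction_on with
    | H x => rw [chiMap_mk, map_one, Module.End.one_apply, Module.End.one_apply]
  map_mul' d d' := by
    refine LinearMap.ext fun y => ?_
    induction y using Submodule.Quotient.induction_on with
    | H x =>
      rw [Module.End.mul_apply, chiMap_mk, chiMap_mk, chiMap_mk, map_mul, Module.End.mul_apply]

@[simp] theorem chiRho_mk (d : D₂) (x : V) :
    chiRho ρ χ d (Submodule.Quotient.mk x) = Submodule.Quotient.mk (ρ (1, d) x) := rfl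

section WithBasis

variable (B : Module.Basis ((D₁ × D₂) × ι) O V) (hB : ∀ z, B z = ρ z.1 (b z.2))

/-- The coordinate map `V → ⨁_{D₂ × ι} O`, `ρ (d₁,d₂) (b i) ↦ χ d₁ · e_{(d₂,i)}`. -/
noncomputable def chiCoord : V →ₗ[O] (D₂ × ι →₀ O) :=
  B.constr O (fun z : (D₁ × D₂) × ι => Finsupp.single (z.1.2, z.2) (χ z.1.1))

theorem chiCoord_basis (z : (D₁ × D₂) × ι) :
    chiCoord χ B (B z) = Finsupp.single (z.1.2, z.2) (χ z.1.1) := by
  rw [chiCoord, Module.Basis.constr_basis]

include hB in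
theorem chiCoord_rho (d : D₁) (x : V) :
    chiCoord χ B (ρ (d, 1) x) = χ d • chiCoord χ B x := by
  have : (chiCoord χ B).comp (ρ (d, 1)) = χ d • chiCoord χ B := by
    refine B.ext fun z => ?_
    obtain ⟨⟨d₁, d₂⟩, i⟩ := z
    have h1 : ρ (d, 1) (B ((d₁, d₂), i)) = B ((d * d₁, d₂), i) := by
      rw [hB, hB, ← Module.End.mul_apply, ← map_mul, Prod.mk_mul_mk, one_mul]
    rw [LinearMap.comp_apply, h1, LinearMap.smul_apply, chiCoord_basis, chiCoord_basis,
      Finsupp.smul_single, smul_eq_mul, map_mul]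
  exact congrArg (fun f : V →ₗ[O] (D₂ × ι →₀ O) => f x) this

include hB in
theorem chiCoord_eq_zero_of_mem {x : V} (hx : x ∈ chiRel (rhoL ρ) χ) : chiCoord χ B x = 0 := by
  induction hx using Submodule.span_induction with
  | mem w hw =>
    obtain ⟨d, y, rfl⟩ := hw
    rw [map_sub, map_smul, rhoL_apply, chiCoord_rho ρ χ b B hB, sub_self]
  | zero => rw [map_zero]
  | add a c _ _ ha hc => rw [map_add, ha, hc, add_zero]
  | smul c a _ ha => rw [map_smul, ha, smul_zero]

/-- The section `⨁_{D₂ × ι} O → V`, `e_{(d₂,i)} ↦ ρ (1,d₂) (b i)`. -/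
noncomputable def chiSec : (D₂ × ι →₀ O) →ₗ[O] V :=
  Finsupp.linearCombination O (fun w : D₂ × ι => ρ (1, w.1) (b w.2))

theorem chiSec_single (w : D₂ × ι) (c : O) :
    chiSec ρ b (Finsupp.single w c) = c • ρ (1, w.1) (b w.2) := by
  rw [chiSec, Finsupp.linearCombination_single]

include hB in
theorem chiCoord_chiSec (f : D₂ × ι →₀ O) : chiCoord χ B (chiSec ρ b f) = f := by
  have : (chiCoord χ B).comp (chiSec ρ b) = LinearMap.id := by
    refine Finsupp.lhom_ext fun w c => ?_
    have h1 : ρ (1, w.1) (b w.2) = B ((1, w.1), w.2) := (hB ((1, w.1), w.2)).symm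
    rw [LinearMap.comp_apply, chiSec_single, map_smul, h1, chiCoord_basis, map_one,
      Finsupp.smul_single, smul_eq_mul, mul_one, LinearMap.id_apply]
  exact congrArg (fun g : (D₂ × ι →₀ O) →ₗ[O] (D₂ × ι →₀ O) => g f) this

include hB in
theorem sub_chiSec_chiCoord_mem (x : V) :
    x - chiSec ρ b (chiCoord χ B x) ∈ chiRel (rhoL ρ) χ := by
  have hmem : x ∈ (chiRel (rhoL ρ) χ).comap
      (LinearMap.id - (chiSec ρ b).comp (chiCoord χ B)) := by
    have htop : Submodule.span O (Set.range B) ≤ (chiRel (rhoL ρ) χ).comap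
        (LinearMap.id - (chiSec ρ b).comp (chiCoord χ B)) := by
      refine Submodule.span_le.mpr ?_
      rintro _ ⟨⟨⟨d₁, d₂⟩, i⟩, rfl⟩
      rw [SetLike.mem_coe, Submodule.mem_comap, LinearMap.sub_apply, LinearMap.id_apply,
        LinearMap.comp_apply, chiCoord_basis, chiSec_single, hB]
      have h2 : ρ (d₁, d₂) (b i) = rhoL ρ d₁ (ρ (1, d₂) (b i)) := by
        rw [rhoL_apply, ← Module.End.mul_apply, ← rho_eq_mul]
      rw [h2]
      exact sub_mem_chiRel (rhoL ρ) χ d₁ _
    exact htop (by rw [B.span_eq]; exact Submodule.mem_top)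
  simpa using hmem

/-- **The `χ`-part is free over the second factor**: the linear equivalence
`V ⧸ chiRel ≃ ⨁_{D₂ × ι} O`. -/
noncomputable def chiEquiv : (V ⧸ chiRel (rhoL ρ) χ) ≃ₗ[O] (D₂ × ι →₀ O) where
  __ := (chiRel (rhoL ρ) χ).liftQ (chiCoord χ B)
    (fun _ hx => chiCoord_eq_zero_of_mem ρ χ b B hB hx)
  invFun f := Submodule.Quotient.mk (chiSec ρ b f)
  left_inv y := by
    induction y using Submodule.Quotient.induction_on with
    | H x =>
      change Submodule.Quotient.mk (chiSec ρ b (chiCoord χ B x)) = Submodule.Quotient.mk x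
      rw [eq_comm, ← sub_eq_zero, ← Submodule.Quotient.mk_sub, Submodule.Quotient.mk_eq_zero]
      exact sub_chiSec_chiCoord_mem ρ χ b B hB x
  right_inv f := by
    change chiCoord χ B (chiSec ρ b f) = f
    exact chiCoord_chiSec ρ χ b B hB f

/-- The induced basis of the `χ`-part: the classes of the `ρ (1,d₂) (b i)`. -/
noncomputable def chiBasis : Module.Basis (D₂ × ι) O (V ⧸ chiRel (rhoL ρ) χ) :=
  Module.Basis.ofRepr (chiEquiv ρ χ b B hB)

theorem chiBasis_apply (w : D₂ × ι) :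
    chiBasis ρ χ b B hB w = Submodule.Quotient.mk (ρ (1, w.1) (b w.2)) := by
  have h1 : chiBasis ρ χ b B hB w = (chiEquiv ρ χ b B hB).symm (Finsupp.single w 1) := rfl
  rw [h1]
  change Submodule.Quotient.mk (chiSec ρ b (Finsupp.single w 1)) = _
  rw [chiSec_single, one_smul]

theorem chiBasis_apply' (w : D₂ × ι) :
    chiBasis ρ χ b B hB w = chiRho ρ χ w.1 (Submodule.Quotient.mk (b w.2)) := by
  rw [chiBasis_apply, chiRho_mk]

end WithBasis

/-- **Freeness of the `χ`-part** in the shape of `S59.MFree.FreeConclusion` /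
`S59.H525.basis_transfer`: if the `ρ (d₁,d₂) (b i)` form an `O`-basis of `V`, then the
`d₂ • [b i]` form an `O`-basis of the `χ`-part `V ⧸ chiRel`. -/
theorem chi_basis [Nontrivial O]
    (hli : LinearIndependent O (fun z : (D₁ × D₂) × ι => ρ z.1 (b z.2)))
    (hsp : Submodule.span O (Set.range fun z : (D₁ × D₂) × ι => ρ z.1 (b z.2)) = ⊤) :
    LinearIndependent O (fun w : D₂ × ι =>
        chiRho ρ χ w.1 (Submodule.Quotient.mk (b w.2) : V ⧸ chiRel (rhoL ρ) χ)) ∧
      Submodule.span O (Set.range fun w : D₂ × ι =>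
        chiRho ρ χ w.1 (Submodule.Quotient.mk (b w.2) : V ⧸ chiRel (rhoL ρ) χ)) = ⊤ := by
  let B : Module.Basis ((D₁ × D₂) × ι) O V := Module.Basis.mk hli (by rw [hsp])
  have hB : ∀ z, B z = ρ z.1 (b z.2) := fun z => by
    simp only [B, Module.Basis.mk_apply]
  have hfun : (fun w : D₂ × ι =>
      chiRho ρ χ w.1 (Submodule.Quotient.mk (b w.2) : V ⧸ chiRel (rhoL ρ) χ)) =
      chiBasis ρ χ b B hB := by
    funext w
    rw [chiBasis_apply']
  rw [hfun]
  exact ⟨(chiBasis ρ χ b B hB).linearIndependent, (chiBasis ρ χ b B hB).span_eq⟩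

/-- The `χ`-part is nonzero as soon as `V` is (both are free of ranks `|D₂|·n` and
`|D₁|·|D₂|·n`). -/
theorem chi_nontrivial [Nontrivial O] [Nonempty ι]
    (hli : LinearIndependent O (fun z : (D₁ × D₂) × ι => ρ z.1 (b z.2)))
    (hsp : Submodule.span O (Set.range fun z : (D₁ × D₂) × ι => ρ z.1 (b z.2)) = ⊤) :
    Nontrivial (V ⧸ chiRel (rhoL ρ) χ) := by
  let B : Module.Basis ((D₁ × D₂) × ι) O V := Module.Basis.mk hli (by rw [hsp])
  have hB : ∀ z, B z = ρ z.1 (b z.2) := fun z => by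
    simp only [B, Module.Basis.mk_apply]
  obtain ⟨i⟩ := ‹Nonempty ι›
  exact ⟨⟨chiBasis ρ χ b B hB (1, i), 0, (chiBasis ρ χ b B hB).ne_zero (1, i)⟩⟩

end Basis

/-! ## The `χ`-norm: `V ⧸ chiRel` is also the image of `N_χ = ∑ χ(d)⁻¹ d` -/

section Norm

variable {D₁ D₂ ι : Type*} [Group D₁] [Fintype D₁] [Monoid D₂]
  (ρ : D₁ × D₂ →* Module.End O V) (χ : D₁ →* O) (b : ι → V)

theorem chi_mul_chi_inv (d : D₁) : χ d * χ d⁻¹ = 1 := by
  rw [← map_mul, mul_inv_cancel, map_one]

theorem chi_mul_chi_mul_inv (d a : D₁) : χ d * χ (d * a)⁻¹ = χ a⁻¹ := by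
  rw [mul_inv_rev, map_mul, mul_comm (χ a⁻¹), ← mul_assoc, chi_mul_chi_inv, one_mul]

theorem chi_mul_chi_mul_inv' (d a : D₁) : χ d * χ (a * d)⁻¹ = χ a⁻¹ := by
  rw [mul_inv_rev, map_mul, ← mul_assoc, chi_mul_chi_inv, one_mul]

/-- The `χ`-norm `N_χ = ∑_{d ∈ D₁} χ(d⁻¹) ρ(d,1)`; for `χ = 1` the norm of `D₁`. -/
noncomputable def chiNorm : Module.End O V := ∑ d : D₁, χ d⁻¹ • ρ (d, 1)

theorem chiNorm_apply (x : V) : chiNorm ρ χ x = ∑ d : D₁, χ d⁻¹ • ρ (d, 1) x := by
  rw [chiNorm, LinearMap.sum_apply]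
  rfl

theorem rho_one_mul (d a : D₁) (x : V) : ρ (d, 1) (ρ (a, 1) x) = ρ (d * a, 1) x := by
  rw [← Module.End.mul_apply, ← map_mul, Prod.mk_mul_mk, one_mul]

/-- `ρ (d,1) ∘ N_χ = χ(d) N_χ`: the image of `N_χ` lies in the `χ`-isotypic submodule. -/
theorem rho_chiNorm (d : D₁) (x : V) : ρ (d, 1) (chiNorm ρ χ x) = χ d • chiNorm ρ χ x := by
  rw [chiNorm_apply, map_sum, Finset.smul_sum]
  refine Fintype.sum_equiv (Equiv.mulLeft d) _ _ fun a => ?_
  rw [Equiv.coe_mulLeft, map_smul, rho_one_mul, smul_smul, chi_mul_chi_mul_inv]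

/-- `N_χ ∘ ρ (d,1) = χ(d) N_χ`. -/
theorem chiNorm_rho (d : D₁) (x : V) : chiNorm ρ χ (ρ (d, 1) x) = χ d • chiNorm ρ χ x := by
  rw [chiNorm_apply, chiNorm_apply, Finset.smul_sum]
  refine Fintype.sum_equiv (Equiv.mulRight d) _ _ fun a => ?_
  rw [Equiv.coe_mulRight, rho_one_mul, smul_smul, chi_mul_chi_mul_inv']

/-- `N_χ` kills the `χ`-relations. -/
theorem chiNorm_eq_zero_of_mem {x : V} (hx : x ∈ chiRel (rhoL ρ) χ) : chiNorm ρ χ x = 0 := by
  induction hx using Submodule.span_induction with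
  | mem w hw =>
    obtain ⟨d, y, rfl⟩ := hw
    rw [map_sub, map_smul, rhoL_apply, chiNorm_rho, sub_self]
  | zero => rw [map_zero]
  | add a c _ _ ha hc => rw [map_add, ha, hc, add_zero]
  | smul c a _ ha => rw [map_smul, ha, smul_zero]

/-- `N_χ` on a basis vector. -/
theorem chiNorm_rho_basis (d₁ : D₁) (d₂ : D₂) (i : ι) :
    chiNorm ρ χ (ρ (d₁, d₂) (b i)) = ∑ a : D₁, (χ d₁ * χ a⁻¹) • ρ (a, d₂) (b i) := by
  rw [chiNorm_apply]
  refine Fintype.sum_equiv (Equiv.mulRight d₁) _ _ fun a => ?_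
  rw [Equiv.coe_mulRight, ← Module.End.mul_apply, ← map_mul, Prod.mk_mul_mk, one_mul,
    chi_mul_chi_mul_inv']

/-- **Kernel of the `χ`-norm on a free module**: if the `ρ (d₁,d₂) (b i)` form an `O`-basis of
`V`, then `ker N_χ` is the module of `χ`-relations.  (For `χ = 1`: `ker N_{D₁} = I_{D₁} V`.) -/
theorem mem_chiRel_iff_chiNorm_eq_zero
    (B : Module.Basis ((D₁ × D₂) × ι) O V) (hB : ∀ z, B z = ρ z.1 (b z.2)) (x : V) :
    x ∈ chiRel (rhoL ρ) χ ↔ chiNorm ρ χ x = 0 := by
  classical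
  refine ⟨chiNorm_eq_zero_of_mem ρ χ, fun hx => ?_⟩
  -- the coordinate of `N_χ y` at `((1,d₂),i)` is `chiCoord y (d₂,i)`
  have key : ∀ (w : D₂ × ι) (y : V),
      B.repr (chiNorm ρ χ y) ((1, w.1), w.2) = chiCoord χ B y w := by
    intro w
    have hlin : (B.coord ((1, w.1), w.2)) ∘ₗ chiNorm ρ χ = Finsupp.lapply w ∘ₗ chiCoord χ B := by
      refine B.ext fun z => ?_
      obtain ⟨⟨d₁, d₂⟩, i⟩ := z
      rw [LinearMap.comp_apply, LinearMap.comp_apply, chiCoord_basis, Finsupp.lapply_apply, hB,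
        chiNorm_rho_basis, map_sum]
      have hterm : ∀ a : D₁, B.coord ((1, w.1), w.2) ((χ d₁ * χ a⁻¹) • ρ (a, d₂) (b i)) =
          if a = 1 ∧ (d₂, i) = w then χ d₁ else 0 := by
        intro a
        rw [map_smul, ← hB ((a, d₂), i), Module.Basis.coord_apply, B.repr_self,
          Finsupp.single_apply, smul_eq_mul]
        by_cases h : a = 1 ∧ (d₂, i) = w
        · obtain ⟨rfl, rfl⟩ := h
          simp
        · rw [if_neg h, if_neg, mul_zero]
          intro h'
          apply h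
          have h1 := congrArg (fun t : (D₁ × D₂) × ι => t.1.1) h'
          have h2 := congrArg (fun t : (D₁ × D₂) × ι => t.1.2) h'
          have h3 := congrArg (fun t : (D₁ × D₂) × ι => t.2) h'
          exact ⟨h1, Prod.ext h2 h3⟩
      rw [Finset.sum_congr rfl fun a _ => hterm a]
      by_cases hw : (d₂, i) = w
      · rw [Finset.sum_eq_single 1]
        · rw [if_pos ⟨rfl, hw⟩, ← hw, Finsupp.single_eq_same]
        · intro a _ ha
          rw [if_neg (fun h => ha h.1)]
        · intro h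
          exact absurd (Finset.mem_univ _) h
      · rw [Finset.sum_eq_zero (fun a _ => if_neg (fun h => hw h.2)),
          Finsupp.single_apply, if_neg hw]
    intro y
    have := congrArg (fun f : V →ₗ[O] O => f y) hlin
    simpa only [LinearMap.comp_apply, Finsupp.lapply_apply, Module.Basis.coord_apply] using this
  have hcoord : chiCoord χ B x = 0 := by
    refine Finsupp.ext fun w => ?_
    rw [← key w x, hx, map_zero, Finsupp.zero_apply, Finsupp.zero_apply]
  have := sub_chiSec_chiCoord_mem ρ χ b B hB x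
  rwa [hcoord, map_zero, sub_zero] at this

/-- `ker N_χ = ` `χ`-relations, in the `LinearIndependent`/`span` shape. -/
theorem mem_chiRel_iff_chiNorm_eq_zero' [Nontrivial O]
    (hli : LinearIndependent O (fun z : (D₁ × D₂) × ι => ρ z.1 (b z.2)))
    (hsp : Submodule.span O (Set.range fun z : (D₁ × D₂) × ι => ρ z.1 (b z.2)) = ⊤) (x : V) :
    x ∈ chiRel (rhoL ρ) χ ↔ chiNorm ρ χ x = 0 := by
  let B : Module.Basis ((D₁ × D₂) × ι) O V := Module.Basis.mk hli (by rw [hsp])
  have hB : ∀ z, B z = ρ z.1 (b z.2) := fun z => by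
    simp only [B, Module.Basis.mk_apply]
  exact mem_chiRel_iff_chiNorm_eq_zero ρ χ b B hB x

end Norm

end Fermat.Agent.S38.H354
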