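import Fermat.Agent.S38.IA.Hecke.Spec3
import Fermat.Agent.S38.H354.ChiAut

/-!
# Row HARD, cell HECKE, layer 3, GLUE A: `IABettiStatement → IAAut5Statement` (helper354)

Pure algebra (the `χ`-part).  `Hecke/Spec3.lean` (sub-architect helper3) cuts `IAAut5Statement`
into the abstract Betti module `IABettiStatement` (a `T_Q`-module `V` with a `T_Q`-linear diamond
action of `∏ (ℤ/pv i)ˣ × ∏ (ℤ/qv j)ˣ`, free of rank `d`, with (NU) and (ST) into the
`χ`-relations, and `Cmp`) and this glue: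

* `iaAutLevel_of_bettiLevel` : `B : IABettiLevel Piv pv qv PQ d`, `B.Cmp`, `ζ` a primitive
  `p`-th root of unity, `pv i` primes `≡ 1 mod p` ⟹ `∃ A : IAAutLevel Piv qv PQ (ζ - 1) d, A.Cmp`
  (`A.MQ` = the `χ`-part `B.V ⧸ chiRel`, `χ` the character of `ChiChar.exists_pivot_character`);
* `iaAut5_of_betti : IABettiStatement → IAAut5Statement` (VERBATIM `Spec3`).
-/

set_option autoImplicit false
set_option linter.unusedSectionVars false
set_option linter.style.haveILetI false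

open Polynomial IsLocalRing

namespace Fermat.Agent.S38.H354

open Fermat.Agent.S59.Arch Fermat.Agent.S59.TW.H959 Fermat.Agent.S59.TW Fermat.Agent.S59.H765
open Fermat.Agent.S38.IA Fermat.Agent.S38.IA.Hecke

/-- The augmentation submodule, in the shape of `IABettiLevel.st`. -/
theorem chiRel_one_eq_span {T : Type*} [CommRing T] {V : Type*} [AddCommGroup V] [Module T V]
    {D : Type*} [Monoid D] (ρ : D →* Module.End T V) :
    chiRel ρ (1 : D →* T) =
      Submodule.span T {w : V | ∃ (a : D) (y : V), w = ρ a y - y} := by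
  unfold chiRel
  congr 1
  ext w
  constructor
  · rintro ⟨a, y, rfl⟩
    exact ⟨a, y, by rw [MonoidHom.one_apply, one_smul]⟩
  · rintro ⟨a, y, rfl⟩
    exact ⟨a, y, by rw [MonoidHom.one_apply, one_smul]⟩

section Level

variable {p : ℕ}
  {𝒪 : Type} [CommRing 𝒪] [IsDomain 𝒪] [IsDiscreteValuationRing 𝒪]
  [IsAdicComplete (maximalIdeal 𝒪) 𝒪]
  {ρbar : ResidualGaloisRep (ResidueField 𝒪)} {Smin : Finset ℕ}
  {Piv : Finset ℕ} {k : ℕ} {pv : Fin k → ℕ} {r : ℕ} {qv : Fin r → ℕ}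
  [NeZero (wilesLevel p .flat Smin (Smin ∪ Piv ∪ Finset.univ.image qv))]
  {PQ : HeckePkg p 𝒪 ρbar .flat Smin (Smin ∪ Piv ∪ Finset.univ.image qv)} {d : ℕ}

/-- **Glue A at one Taylor–Wiles set**: the `χ`-part of an abstract Betti module is an automorphic
Ihara-avoidance module. -/
theorem iaAutLevel_of_bettiLevel (B : IABettiLevel Piv pv qv PQ d) (hB : B.Cmp)
    (hp : p.Prime) (ζ : 𝒪) (hζ : IsPrimitiveRoot ζ p)
    (hpv : ∀ i, (pv i).Prime) (hdvd : ∀ i, p ∣ pv i - 1) :
    ∃ A : IAAutLevel Piv qv PQ (ζ - 1) d, A.Cmp := by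
  refine exists_iaAutLevel_cyc PQ B.V pv B.dia d hp ζ hζ hpv hdvd B.dia_pow₁ B.dia_pow₂ B.free
    ?_ ?_ hB
  · intro χ hχp hχg t ht m
    have hpiv : IsPivChar p pv χ := by
      refine ⟨hχp, fun i => ?_⟩
      obtain ⟨g, hg, -⟩ := exists_primitive_root_units (hpv i)
      exact ⟨g, hχg i g hg⟩
    induction m using Submodule.Quotient.induction_on with
    | H v =>
      rw [← Submodule.Quotient.mk_smul, Submodule.Quotient.mk_eq_zero]
      exact B.nu χ hpiv t ht v
  · intro q hq P hP φ hφ x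
    rw [chiRel_one_eq_span]
    exact B.st q hq P hP φ hφ x

end Level

/-- An enumeration of a finite set of natural numbers. -/
theorem exists_enum (Piv : Finset ℕ) :
    ∃ (k : ℕ) (pv : Fin k → ℕ), Function.Injective pv ∧ Finset.univ.image pv = Piv := by
  refine ⟨Piv.card, fun i => Piv.orderEmbOfFin rfl i, (Piv.orderEmbOfFin rfl).injective, ?_⟩
  have h := Finset.map_orderEmbOfFin_univ Piv (rfl : Piv.card = Piv.card)
  rw [Finset.map_eq_image] at h
  exact h

/-- **GLUE A** (VERBATIM `Hecke/Spec3.lean`): the abstract Betti module gives the automorphic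
module of Ihara avoidance. -/
theorem iaAut5_of_betti (h : IABettiStatement) : IAAut5Statement := by
  intro p hpF hp5 𝒪 _ _ _ _ _ _ ρbar Smin hh hflat ζ hζ Piv hPiv _ θ₀ hθ₀ hmin
  obtain ⟨k, pv, hpvinj, hpvPiv⟩ := exists_enum Piv
  have hmem : ∀ i, pv i ∈ Piv := by
    intro i
    rw [← hpvPiv]
    exact Finset.mem_image_of_mem pv (Finset.mem_univ i)
  have hpv : ∀ i, (pv i).Prime := fun i => (hPiv (pv i) (hmem i)).1
  have hdvd : ∀ i, p ∣ pv i - 1 := fun i => (hPiv (pv i) (hmem i)).2.2.1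
  obtain ⟨d, hd, hB⟩ := h p hp5 𝒪 ρbar Smin hh hflat Piv hPiv θ₀ hθ₀ hmin k pv hpvinj hpvPiv
  refine ⟨d, hd, ?_⟩
  intro n r qv hq _ hp PQ hθ
  obtain ⟨B, hBcmp⟩ := hB n r qv hq hp PQ hθ
  exact iaAutLevel_of_bettiLevel B hBcmp hpF.out ζ hζ hpv hdvd

end Fermat.Agent.S38.H354
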